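/-
S28, package P2 (helper7), leaf N: Newton's identities in graded form, and Vieta for families
indexed by a finite type.
-/
import Mathlib

set_option autoImplicit false
noncomputable section

namespace Fermat.Agent.S28L

open Polynomial

/-- Newton's identity for a finite family in a commutative ring, obtained by specialising the
polynomial identity `MvPolynomial.mul_esymm_eq_sum`. -/
theorem nwt_newton {A : Type*} [CommRing A] {σ : Type*} [Fintype σ] (x : σ → A) (i : ℕ) :
    (i : A) * (Finset.univ.val.map x).esymm i = (-1) ^ (i + 1) *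
      ∑ a ∈ (Finset.HasAntidiagonal.antidiagonal i).filter (fun a => a.1 < i),
        (-1) ^ a.1 * (Finset.univ.val.map x).esymm a.1 * ∑ c, x c ^ a.2 := by
  classical
  have h := congrArg (MvPolynomial.aeval x : MvPolynomial σ ℤ →ₐ[ℤ] A)
    (MvPolynomial.mul_esymm_eq_sum σ ℤ i)
  simpa only [map_mul, map_natCast, map_pow, map_neg, map_one, map_sum,
    MvPolynomial.aeval_esymm_eq_multiset_esymm, MvPolynomial.psum, MvPolynomial.aeval_X] using h

/-- Multiplying by a power of `-1` preserves membership in an additive subgroup. -/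
theorem nwt_neg_one_pow_mul_mem {A : Type*} [CommRing A] (V : AddSubgroup A) (n : ℕ) {y : A}
    (hy : y ∈ V) : (-1) ^ n * y ∈ V := by
  rcases neg_one_pow_eq_or A n with h | h
  · rw [h, one_mul]
    exact hy
  · rw [h, neg_one_mul]
    exact V.neg_mem hy

/-- Graded Newton: if the power sums `∑ x_c ^ n` of a finite family lie in the degree-`n k` piece
of a "graded, divisible" family of additive subgroups, then the elementary symmetric functions
`e_i` lie in the degree-`i k` piece. -/
theorem esymm_mem_graded {A : Type*} [CommRing A] (W : ℕ → AddSubgroup A)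
    (h1 : (1 : A) ∈ W 0)
    (hmul : ∀ (a b : ℕ) (x y : A), x ∈ W a → y ∈ W b → x * y ∈ W (a + b))
    (hdiv : ∀ (n w : ℕ) (x : A), 0 < n → (n : A) * x ∈ W w → x ∈ W w)
    {σ : Type*} [Fintype σ] (x : σ → A) (k : ℕ)
    (hp : ∀ n : ℕ, 1 ≤ n → ∑ c, x c ^ n ∈ W (n * k)) (i : ℕ) :
    (Finset.univ.val.map x).esymm i ∈ W (i * k) := by
  induction i using Nat.strong_induction_on with
  | _ i ih =>
    rcases Nat.eq_zero_or_pos i with rfl | hi
    · have h0 : (Finset.univ.val.map x).esymm 0 = 1 := by
        simp [Multiset.esymm, Multiset.powersetCard_zero_left]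
      rw [zero_mul, h0]
      exact h1
    · apply hdiv i (i * k) _ hi
      rw [nwt_newton x i]
      apply nwt_neg_one_pow_mul_mem
      apply AddSubgroup.sum_mem
      intro a ha
      rw [Finset.mem_filter, Finset.HasAntidiagonal.mem_antidiagonal] at ha
      obtain ⟨ha1, ha2⟩ := ha
      have he : (Finset.univ.val.map x).esymm a.1 * ∑ c, x c ^ a.2 ∈ W (a.1 * k + a.2 * k) :=
        hmul _ _ _ _ (ih a.1 ha2) (hp a.2 (by omega))
      have hidx : a.1 * k + a.2 * k = i * k := by rw [← add_mul, ha1]
      rw [hidx] at he
      rw [mul_assoc]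
      exact nwt_neg_one_pow_mul_mem _ _ he

/-- The multiset underlying a family indexed by a finite type has the expected cardinality. -/
theorem nwt_card_map {A : Type*} {σ : Type*} [Fintype σ] (x : σ → A) :
    Multiset.card (Finset.univ.val.map x) = Fintype.card σ := by
  rw [Multiset.card_map]
  rfl

/-- The product over a finite type as a multiset product. -/
theorem nwt_prod_eq {A : Type*} [CommRing A] {σ : Type*} [Fintype σ] (x : σ → A) :
    (∏ c, (X - C (x c))) = ((Finset.univ.val.map x).map fun t => X - C t).prod := by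
  rw [Multiset.map_map]
  rfl

/-- Vieta for a family indexed by a finite type. -/
theorem prod_X_sub_C_coeff_fintype {A : Type*} [CommRing A] {σ : Type*} [Fintype σ] (x : σ → A)
    {i : ℕ} (hi : i ≤ Fintype.card σ) :
    (∏ c, (X - C (x c))).coeff i =
      (-1) ^ (Fintype.card σ - i) * (Finset.univ.val.map x).esymm (Fintype.card σ - i) := by
  rw [nwt_prod_eq, Multiset.prod_X_sub_C_coeff _ (by rw [nwt_card_map]; exact hi), nwt_card_map]

theorem prod_X_sub_C_eq_sum_esymm_fintype {A : Type*} [CommRing A] {σ : Type*} [Fintype σ]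
    (x : σ → A) :
    (∏ c, (X - C (x c))) = ∑ j ∈ Finset.range (Fintype.card σ + 1),
      (-1) ^ j * (C ((Finset.univ.val.map x).esymm j) * X ^ (Fintype.card σ - j)) := by
  rw [nwt_prod_eq, Multiset.prod_X_sub_X_eq_sum_esymm, nwt_card_map]

theorem esymm_zero_fintype {A : Type*} [CommRing A] {σ : Type*} [Fintype σ] (x : σ → A) :
    (Finset.univ.val.map x).esymm 0 = 1 := by
  simp [Multiset.esymm, Multiset.powersetCard_zero_left]

theorem esymm_card_fintype {A : Type*} [CommRing A] {σ : Type*} [Fintype σ] (x : σ → A) :
    (Finset.univ.val.map x).esymm (Fintype.card σ) = ∏ c, x c := by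
  rw [Finset.esymm_map_val, ← Finset.card_univ, Finset.powersetCard_self, Finset.sum_singleton]

/-- The elementary symmetric functions of a family in a subring lie in the subring. -/
theorem esymm_mem_subring {A : Type*} [CommRing A] (B : Subring A) {σ : Type*} [Fintype σ]
    (x : σ → A) (hx : ∀ c, x c ∈ B) (i : ℕ) : (Finset.univ.val.map x).esymm i ∈ B := by
  rw [Finset.esymm_map_val]
  exact B.sum_mem fun t _ => B.prod_mem fun c _ => hx c

end Fermat.Agent.S28L
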