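/-
S28, package P2 (helper7), leaf I: Laurent series over `ℂ` with integer / algebraic-integer /
rational coefficients; integrality of elementary symmetric functions from integrality of the
members and rationality of the power sums.
-/
import Mathlib
import Fermat.Agent.S28L.Defs
import Fermat.Agent.S28L.Util
import Fermat.Agent.S28L.ModPoly.Newton

set_option autoImplicit false
noncomputable section

namespace Fermat.Agent.S28L

open ModularCurve HahnSeries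

/-- Laurent series over `ℂ` with integer coefficients. -/
def ZC : Subring (LaurentSeries ℂ) := (coeffMap (Int.castRingHom ℂ)).range

/-- A Laurent series over `ℂ` all of whose coefficients are integers is the image of a Laurent
series over `ℤ`. -/
theorem CoA1_exists_coeffMap_eq {f : LaurentSeries ℂ} (c : ℤ → ℤ)
    (hc : ∀ n : ℤ, ((c n : ℤ) : ℂ) = f.coeff n) :
    ∃ f₀ : LaurentSeries ℤ, coeffMap (Int.castRingHom ℂ) f₀ = f := by
  have hsupp : Function.support c ⊆ f.support := by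
    intro n hn
    rw [Function.mem_support] at hn
    rw [HahnSeries.mem_support, ← hc n]
    exact Int.cast_ne_zero.mpr hn
  refine ⟨⟨c, f.isPWO_support.mono hsupp⟩, ?_⟩
  ext n
  rw [coeffMap_coeff]
  exact hc n

theorem mem_ZC_iff {f : LaurentSeries ℂ} : f ∈ ZC ↔ ∀ n : ℤ, ∃ m : ℤ, (m : ℂ) = f.coeff n := by
  constructor
  · rintro ⟨f₀, rfl⟩ n
    exact ⟨f₀.coeff n, (coeffMap_coeff (Int.castRingHom ℂ) f₀ n).symm⟩
  · intro h
    choose c hc using h
    exact CoA1_exists_coeffMap_eq c hc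

theorem coeffMap_mem_ZC (f : LaurentSeries ℤ) : coeffMap (Int.castRingHom ℂ) f ∈ ZC := ⟨f, rfl⟩

theorem exists_of_mem_ZC {f : LaurentSeries ℂ} (hf : f ∈ ZC) :
    ∃ f₀ : LaurentSeries ℤ, coeffMap (Int.castRingHom ℂ) f₀ = f := hf

theorem CoA1_int_mul {f g : LaurentSeries ℂ} (hf : ∀ n : ℤ, IsIntegral ℤ (f.coeff n))
    (hg : ∀ n : ℤ, IsIntegral ℤ (g.coeff n)) (n : ℤ) : IsIntegral ℤ ((f * g).coeff n) := by
  rw [HahnSeries.coeff_mul]
  exact IsIntegral.sum _ fun ij _ => (hf ij.1).mul (hg ij.2)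

theorem CoA1_int_one (n : ℤ) : IsIntegral ℤ ((1 : LaurentSeries ℂ).coeff n) := by
  rw [HahnSeries.coeff_one]
  split_ifs
  · exact isIntegral_one
  · exact isIntegral_zero

/-- Laurent series over `ℂ` whose coefficients are algebraic integers. -/
def IntC : Subring (LaurentSeries ℂ) where
  carrier := {f | ∀ n : ℤ, IsIntegral ℤ (f.coeff n)}
  mul_mem' := by
    intro f g hf hg n
    exact CoA1_int_mul hf hg n
  one_mem' := by
    intro n
    exact CoA1_int_one n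
  add_mem' := by
    intro f g hf hg n
    exact (hf n).add (hg n)
  zero_mem' := by
    intro n
    exact isIntegral_zero
  neg_mem' := by
    intro f hf n
    exact (hf n).neg

theorem mem_IntC_iff {f : LaurentSeries ℂ} : f ∈ IntC ↔ ∀ n : ℤ, IsIntegral ℤ (f.coeff n) :=
  Iff.rfl

theorem CoA1_rat_mul {f g : LaurentSeries ℂ} (hf : ∀ n : ℤ, ∃ r : ℚ, (r : ℂ) = f.coeff n)
    (hg : ∀ n : ℤ, ∃ r : ℚ, (r : ℂ) = g.coeff n) (n : ℤ) :
    ∃ r : ℚ, (r : ℂ) = (f * g).coeff n := by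
  choose a ha using hf
  choose b hb using hg
  refine ⟨∑ ij ∈ Finset.antidiagonal f.isPWO_support g.isPWO_support n, a ij.1 * b ij.2, ?_⟩
  rw [HahnSeries.coeff_mul, Rat.cast_sum]
  refine Finset.sum_congr rfl fun ij _ => ?_
  rw [Rat.cast_mul, ha, hb]

theorem CoA1_rat_one (n : ℤ) : ∃ r : ℚ, (r : ℂ) = (1 : LaurentSeries ℂ).coeff n := by
  rw [HahnSeries.coeff_one]
  split_ifs
  · exact ⟨1, Rat.cast_one⟩
  · exact ⟨0, Rat.cast_zero⟩

/-- Laurent series over `ℂ` with rational coefficients. -/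
def RatC : Subring (LaurentSeries ℂ) where
  carrier := {f | ∀ n : ℤ, ∃ r : ℚ, (r : ℂ) = f.coeff n}
  mul_mem' := by
    intro f g hf hg n
    exact CoA1_rat_mul hf hg n
  one_mem' := by
    intro n
    exact CoA1_rat_one n
  add_mem' := by
    intro f g hf hg n
    obtain ⟨r, hr⟩ := hf n
    obtain ⟨s, hs⟩ := hg n
    exact ⟨r + s, by rw [Rat.cast_add, hr, hs, HahnSeries.coeff_add]⟩
  zero_mem' := by
    intro n
    exact ⟨0, by rw [Rat.cast_zero, HahnSeries.coeff_zero]⟩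
  neg_mem' := by
    intro f hf n
    obtain ⟨r, hr⟩ := hf n
    exact ⟨-r, by rw [Rat.cast_neg, hr, HahnSeries.coeff_neg]⟩

theorem mem_RatC_iff {f : LaurentSeries ℂ} : f ∈ RatC ↔ ∀ n : ℤ, ∃ r : ℚ, (r : ℂ) = f.coeff n :=
  Iff.rfl

theorem ZC_le_IntC : ZC ≤ IntC := by
  intro f hf
  rw [mem_IntC_iff]
  intro n
  obtain ⟨m, hm⟩ := mem_ZC_iff.mp hf n
  rw [← hm]
  have h := isIntegral_algebraMap (R := ℤ) (A := ℂ) (x := m)
  rwa [algebraMap_int_eq, Int.coe_castRingHom] at h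

theorem ZC_le_RatC : ZC ≤ RatC := by
  intro f hf
  rw [mem_RatC_iff]
  intro n
  obtain ⟨m, hm⟩ := mem_ZC_iff.mp hf n
  exact ⟨(m : ℚ), by rw [← hm, Rat.cast_intCast]⟩

/-- algebraic integers that are rational are integers -/
theorem mem_ZC_of_mem_IntC_of_mem_RatC {f : LaurentSeries ℂ} (h1 : f ∈ IntC) (h2 : f ∈ RatC) :
    f ∈ ZC := by
  rw [mem_ZC_iff]
  intro n
  obtain ⟨r, hr⟩ := mem_RatC_iff.mp h2 n
  have hint : IsIntegral ℤ (algebraMap ℚ ℂ r) := by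
    rw [eq_ratCast, hr]
    exact mem_IntC_iff.mp h1 n
  have hr' : IsIntegral ℤ r := (isIntegral_algebraMap_iff (algebraMap ℚ ℂ).injective).mp hint
  obtain ⟨m, hm⟩ := IsIntegrallyClosed.isIntegral_iff.mp hr'
  refine ⟨m, ?_⟩
  rw [← hr, ← hm, eq_intCast, Rat.cast_intCast]

theorem RatC_div (n : ℕ) (hn : 0 < n) (x : LaurentSeries ℂ)
    (h : (n : LaurentSeries ℂ) * x ∈ RatC) : x ∈ RatC := by
  rw [mem_RatC_iff] at h ⊢
  intro m
  obtain ⟨r, hr⟩ := h m
  have hc : ((n : LaurentSeries ℂ) * x).coeff m = (n : ℂ) * x.coeff m := by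
    rw [← map_natCast (HahnSeries.C (Γ := ℤ) (R := ℂ)) n, HahnSeries.C_mul_eq_smul,
      HahnSeries.coeff_smul, smul_eq_mul]
  rw [hc] at hr
  have hn0 : (n : ℂ) ≠ 0 := Nat.cast_ne_zero.mpr hn.ne'
  refine ⟨r / n, ?_⟩
  rw [Rat.cast_div, Rat.cast_natCast, hr, mul_div_cancel_left₀ _ hn0]

/-- (I) If the members of a finite family have algebraic-integer coefficients and all power sums
have integer coefficients, then the elementary symmetric functions have integer coefficients. -/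
theorem esymm_mem_ZC {σ : Type*} [Fintype σ] (x : σ → LaurentSeries ℂ)
    (hint : ∀ c, x c ∈ IntC) (hp : ∀ n : ℕ, 1 ≤ n → ∑ c, x c ^ n ∈ ZC) (i : ℕ) :
    (Finset.univ.val.map x).esymm i ∈ ZC := by
  have h1 : (Finset.univ.val.map x).esymm i ∈ IntC := esymm_mem_subring IntC x hint i
  have h2 : (Finset.univ.val.map x).esymm i ∈ RatC :=
    esymm_mem_graded (A := LaurentSeries ℂ) (fun _ => RatC.toAddSubgroup) RatC.one_mem
      (fun _ _ _ _ hy hz => RatC.mul_mem hy hz)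
      (fun n _ y hn h => RatC_div n hn y h) x 0
      (fun n hn => ZC_le_RatC (hp n hn)) i
  exact mem_ZC_of_mem_IntC_of_mem_RatC h1 h2

theorem C_intCast_mem_ZC (m : ℤ) : HahnSeries.C (m : ℂ) ∈ ZC := by
  have h := coeffMap_mem_ZC (HahnSeries.C m)
  rwa [coeffMap_C, Int.coe_castRingHom] at h

theorem C_natCast_mem_ZC (m : ℕ) : HahnSeries.C (m : ℂ) ∈ ZC := by
  have h := C_intCast_mem_ZC (m : ℤ)
  rwa [Int.cast_natCast] at h

theorem qExpand_mem_ZC_iff (N : ℕ) [NeZero N] {f : LaurentSeries ℂ} :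
    qExpand ℂ N f ∈ ZC ↔ f ∈ ZC := by
  constructor
  · intro h
    rw [mem_ZC_iff] at h ⊢
    intro n
    obtain ⟨m, hm⟩ := h ((N : ℤ) * n)
    exact ⟨m, by rw [hm, qExpand_coeff_mul]⟩
  · rintro ⟨f₀, rfl⟩
    exact ⟨qExpand ℤ N f₀, coeffMap_qExpand _ _ _⟩

theorem jqModC_mem_ZC : jqModC ℂ ∈ ZC := ⟨jqModC ℤ, coeffMap_jqModC _⟩

theorem DeltaR_mem_ZC : DeltaR ℂ ∈ ZC := ⟨DeltaR ℤ, coeffMap_DeltaR ℤ _⟩

theorem CoD0_coeffMap_DeltaRInv : coeffMap (Int.castRingHom ℂ) (DeltaRInv ℤ) = DeltaRInv ℂ := by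
  have h1 : coeffMap (Int.castRingHom ℂ) (DeltaRInv ℤ) * DeltaR ℂ = 1 := by
    rw [← coeffMap_DeltaR ℤ (Int.castRingHom ℂ), ← map_mul, DeltaRInv_mul_DeltaR, map_one]
  calc coeffMap (Int.castRingHom ℂ) (DeltaRInv ℤ)
      = coeffMap (Int.castRingHom ℂ) (DeltaRInv ℤ) * (DeltaR ℂ * DeltaRInv ℂ) := by
        rw [DeltaR_mul_DeltaRInv, mul_one]
    _ = DeltaRInv ℂ := by rw [← mul_assoc, h1, one_mul]

theorem DeltaRInv_mem_ZC : DeltaRInv ℂ ∈ ZC := ⟨DeltaRInv ℤ, CoD0_coeffMap_DeltaRInv⟩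

theorem DeltaR_pow_mul_mem_ZC_iff (i : ℕ) {f : LaurentSeries ℂ} :
    DeltaR ℂ ^ i * f ∈ ZC ↔ f ∈ ZC := by
  constructor
  · intro h
    have hf : f = DeltaRInv ℂ ^ i * (DeltaR ℂ ^ i * f) := by
      rw [← mul_assoc, ← mul_pow, DeltaRInv_mul_DeltaR, one_pow, one_mul]
    rw [hf]
    exact ZC.mul_mem (ZC.pow_mem DeltaRInv_mem_ZC i) h
  · intro h
    exact ZC.mul_mem (ZC.pow_mem DeltaR_mem_ZC i) h

end Fermat.Agent.S28L
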