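/-
S28, package P2 (helper7), leaf L (family): the `p + 1` "conjugates" of a `q`-series under the
Hecke correspondence of prime level `p`, in the integral normalisation
`g_∞ = p^k g(q^(p²))`, `g_b = g(ζ^b q)` (`b < p`, `ζ = exp(2πi/p)`), as a family of Laurent
series in `q` (the variable of the statement is `q^(1/p)` of the classical one).
-/
import Mathlib
import Fermat.Agent.S28L.Defs
import Fermat.Agent.S28L.Util
import Fermat.Agent.S28L.Analytic

set_option autoImplicit false
noncomputable section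

namespace Fermat.Agent.S28L

open ModularCurve HahnSeries

/-- `exp(2πi/p)` as a unit of `ℂ`. -/
def zetaC (p : ℕ) : ℂˣ :=
  Units.mk0 (Complex.exp (2 * Real.pi * Complex.I / p)) (Complex.exp_ne_zero _)

theorem zetaC_val (p : ℕ) : ((zetaC p : ℂˣ) : ℂ) = Complex.exp (2 * Real.pi * Complex.I / p) := rfl

theorem zetaC_isPrimitiveRoot (p : ℕ) [Fact p.Prime] : IsPrimitiveRoot ((zetaC p : ℂˣ) : ℂ) p := by
  rw [zetaC_val]
  exact Complex.isPrimitiveRoot_exp p (Fact.out : p.Prime).ne_zero

theorem zetaC_pow_self (p : ℕ) [Fact p.Prime] : zetaC p ^ p = 1 := by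
  apply Units.ext
  rw [Units.val_pow_eq_pow_val, Units.val_one]
  exact (zetaC_isPrimitiveRoot p).pow_eq_one

theorem zetaC_geom_sum (p : ℕ) [Fact p.Prime] :
    ∑ i ∈ Finset.range p, ((zetaC p ^ i : ℂˣ) : ℂ) = 0 := by
  simp only [Units.val_pow_eq_pow_val]
  exact (zetaC_isPrimitiveRoot p).geom_sum_eq_zero (Fact.out : p.Prime).one_lt

/-- orthogonality: `∑_{b<p} ζ^(b n) = p` if `p ∣ n`, else `0` (`n : ℤ`). -/
theorem zetaC_sum_zpow (p : ℕ) [Fact p.Prime] (n : ℤ) :
    ∑ b ∈ Finset.range p, (((zetaC p ^ b) ^ n : ℂˣ) : ℂ) = if (p : ℤ) ∣ n then (p : ℂ) else 0 := by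
  have hζ := zetaC_isPrimitiveRoot p
  have h1 : ∀ b : ℕ, (((zetaC p ^ b) ^ n : ℂˣ) : ℂ) = (((zetaC p ^ n : ℂˣ) : ℂ)) ^ b := by
    intro b
    rw [← Units.val_pow_eq_pow_val, ← zpow_natCast (zetaC p) b, ← zpow_mul, mul_comm, zpow_mul,
      zpow_natCast]
  simp only [h1]
  split_ifs with h
  · have h2 : zetaC p ^ n = 1 := by
      obtain ⟨m, rfl⟩ := h
      rw [zpow_mul, zpow_natCast, zetaC_pow_self, one_zpow]
    rw [h2]
    simp
  · have hη1 : ((zetaC p ^ n : ℂˣ) : ℂ) ≠ 1 := by
      intro h3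
      apply h
      rw [Units.val_zpow_eq_zpow_val] at h3
      exact (hζ.zpow_eq_one_iff_dvd n).mp h3
    have hηp : ((zetaC p ^ n : ℂˣ) : ℂ) ^ p = 1 := by
      rw [← Units.val_pow_eq_pow_val, ← zpow_natCast, ← zpow_mul, mul_comm, zpow_mul, zpow_natCast,
        zetaC_pow_self, one_zpow, Units.val_one]
    have h4 := mul_geom_sum ((zetaC p ^ n : ℂˣ) : ℂ) p
    rw [hηp, sub_self] at h4
    rcases mul_eq_zero.mp h4 with h5 | h5
    · exact absurd (sub_eq_zero.mp h5) hη1
    · exact h5

/-- `∑_{b<p} f(ζ^b q) = p · (the part of f with exponents divisible by p)`. -/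
theorem sum_tw_zetaC_coeff (p : ℕ) [Fact p.Prime] (f : LaurentSeries ℂ) (n : ℤ) :
    (∑ b ∈ Finset.range p, tw (zetaC p ^ b) f).coeff n =
      if (p : ℤ) ∣ n then (p : ℂ) * f.coeff n else 0 := by
  rw [HahnSeries.coeff_sum]
  simp only [tw_coeff]
  rw [← Finset.sum_mul, zetaC_sum_zpow]
  split_ifs
  · rfl
  · rw [zero_mul]

/-- The integrally normalised family of weight `k` attached to a Laurent series `g`:
`g_∞ = p^k · g(q^(p²))` and `g_b = g(ζ^b q)` for `b < p`. -/
def fam (p k : ℕ) [Fact p.Prime] (g : LaurentSeries ℂ) : Option (Fin p) → LaurentSeries ℂ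
  | none => HahnSeries.C ((p : ℂ) ^ k) * qExpand ℂ (p * p) g
  | some b => tw (zetaC p ^ (b : ℕ)) g

@[simp] theorem fam_none (p k : ℕ) [Fact p.Prime] (g : LaurentSeries ℂ) :
    fam p k g none = HahnSeries.C ((p : ℂ) ^ k) * qExpand ℂ (p * p) g := rfl

@[simp] theorem fam_some (p k : ℕ) [Fact p.Prime] (g : LaurentSeries ℂ) (b : Fin p) :
    fam p k g (some b) = tw (zetaC p ^ (b : ℕ)) g := rfl

section

variable (p : ℕ) [Fact p.Prime]

theorem fam_zero (k : ℕ) (c : Option (Fin p)) : fam p k 0 c = 0 := by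
  cases c with
  | none => rw [fam_none, map_zero, mul_zero]
  | some b => rw [fam_some, tw_zero]

theorem fam_add (k : ℕ) (g h : LaurentSeries ℂ) (c : Option (Fin p)) :
    fam p k (g + h) c = fam p k g c + fam p k h c := by
  cases c with
  | none => simp only [fam_none, map_add, mul_add]
  | some b => simp only [fam_some, tw_add]

theorem fam_sub (k : ℕ) (g h : LaurentSeries ℂ) (c : Option (Fin p)) :
    fam p k (g - h) c = fam p k g c - fam p k h c := by
  cases c with
  | none => simp only [fam_none, map_sub, mul_sub]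
  | some b => simp only [fam_some, tw_sub]

theorem fam_C_mul (k : ℕ) (x : ℂ) (g : LaurentSeries ℂ) (c : Option (Fin p)) :
    fam p k (HahnSeries.C x * g) c = HahnSeries.C x * fam p k g c := by
  cases c with
  | none =>
    rw [fam_none, fam_none, map_mul, qExpand_C]
    ring
  | some b => rw [fam_some, fam_some, tw_mul, tw_C]

theorem fam_one (c : Option (Fin p)) : fam p 0 1 c = 1 := by
  cases c with
  | none => rw [fam_none, pow_zero, map_one, map_one, mul_one]
  | some b => rw [fam_some, tw_one]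

/-- weights add under products -/
theorem fam_mul (k l : ℕ) (g h : LaurentSeries ℂ) (c : Option (Fin p)) :
    fam p (k + l) (g * h) c = fam p k g c * fam p l h c := by
  cases c with
  | none =>
    rw [fam_none, fam_none, fam_none, _root_.pow_add, map_mul, map_mul]
    ring
  | some b => rw [fam_some, fam_some, fam_some, tw_mul]

theorem fam_pow (k n : ℕ) (g : LaurentSeries ℂ) (c : Option (Fin p)) :
    fam p (n * k) (g ^ n) c = fam p k g c ^ n := by
  cases c with
  | none =>
    rw [fam_none, fam_none, mul_pow, map_pow (qExpand ℂ (p * p)) g n,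
      ← map_pow (HahnSeries.C : ℂ →+* LaurentSeries ℂ) ((p : ℂ) ^ k) n, ← _root_.pow_mul,
      mul_comm k n]
  | some b => rw [fam_some, fam_some, tw_pow]

theorem fam_ne_zero (k : ℕ) {g : LaurentSeries ℂ} (hg : g ≠ 0) (c : Option (Fin p)) :
    fam p k g c ≠ 0 := by
  cases c with
  | none =>
    rw [fam_none]
    refine mul_ne_zero ?_ (qExpand_ne_zero _ hg)
    intro h0
    have h1 : (HahnSeries.C ((p : ℂ) ^ k) : LaurentSeries ℂ).coeff 0 = 0 := by rw [h0]; rfl
    rw [HahnSeries.C_apply, HahnSeries.coeff_single_same] at h1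
    exact pow_ne_zero k (Nat.cast_ne_zero.mpr (Fact.out : p.Prime).ne_zero) h1
  | some b =>
    rw [fam_some]
    exact fun h0 => hg (tw_injective _ (h0.trans (tw_zero _).symm))

theorem fam_none_order (k : ℕ) (g : LaurentSeries ℂ) :
    (fam p k g none).order = ((p * p : ℕ) : ℤ) * g.order := by
  rw [fam_none]
  rcases eq_or_ne g 0 with rfl | hg
  · rw [map_zero, mul_zero, HahnSeries.order_zero, mul_zero]
  · have hC : (HahnSeries.C ((p : ℂ) ^ k) : LaurentSeries ℂ) ≠ 0 := by
      intro h0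
      have h1 : (HahnSeries.C ((p : ℂ) ^ k) : LaurentSeries ℂ).coeff 0 = 0 := by rw [h0]; rfl
      rw [HahnSeries.C_apply, HahnSeries.coeff_single_same] at h1
      exact pow_ne_zero k (Nat.cast_ne_zero.mpr (Fact.out : p.Prime).ne_zero) h1
    rw [HahnSeries.order_mul hC (qExpand_ne_zero _ hg), HahnSeries.order_C, zero_add,
      qExpand_order]

theorem fam_some_order (k : ℕ) (g : LaurentSeries ℂ) (b : Fin p) :
    (fam p k g (some b)).order = g.order := by
  rw [fam_some]
  rcases eq_or_ne g 0 with rfl | hg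
  · rw [tw_zero]
  · have htw : tw (zetaC p ^ (b : ℕ)) g ≠ 0 :=
      fun h0 => hg (tw_injective _ (h0.trans (tw_zero _).symm))
    refine le_antisymm (HahnSeries.order_le_of_coeff_ne_zero ?_) ?_
    · rw [tw_coeff]
      intro h0
      exact hg (HahnSeries.coeff_order_eq_zero.mp ((Units.mul_right_eq_zero _).mp h0))
    · refine (HahnSeries.le_order_iff_forall htw).mpr (fun n hn => ?_)
      rw [tw_coeff, HahnSeries.coeff_eq_zero_of_lt_order hn, mul_zero]

/-- sums over the family, split into the term at `∞` and the `p` twisted terms -/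
theorem sum_fam {M : Type*} [AddCommMonoid M] (k : ℕ) (g : LaurentSeries ℂ)
    (F : LaurentSeries ℂ → M) :
    ∑ c, F (fam p k g c) =
      F (HahnSeries.C ((p : ℂ) ^ k) * qExpand ℂ (p * p) g) +
        ∑ b ∈ Finset.range p, F (tw (zetaC p ^ b) g) := by
  rw [Fintype.sum_option, ← Fin.sum_univ_eq_sum_range (fun b => F (tw (zetaC p ^ b) g)) p]
  rfl

/-- products over the family, split into the factor at `∞` and the `p` twisted factors -/
theorem prod_fam {M : Type*} [CommMonoid M] (k : ℕ) (g : LaurentSeries ℂ)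
    (F : LaurentSeries ℂ → M) :
    ∏ c, F (fam p k g c) =
      F (HahnSeries.C ((p : ℂ) ^ k) * qExpand ℂ (p * p) g) *
        ∏ b ∈ Finset.range p, F (tw (zetaC p ^ b) g) := by
  rw [Fintype.prod_option, ← Fin.prod_univ_eq_prod_range (fun b => F (tw (zetaC p ^ b) g)) p]
  rfl

end

end Fermat.Agent.S28L
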