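/-
S28, package P2 (helper7), leaf FI: integrality of the elementary symmetric functions of the
family `fam p k g` of a Laurent series `g` with integer coefficients.
-/
import Mathlib
import Fermat.Agent.S28L.ModPoly.Fam
import Fermat.Agent.S28L.ModPoly.Coeffs

set_option autoImplicit false
noncomputable section

namespace Fermat.Agent.S28L

open ModularCurve HahnSeries

variable (p : ℕ) [Fact p.Prime]

theorem tw_zetaC_mem_IntC (b : ℕ) {f : LaurentSeries ℂ} (hf : f ∈ ZC) :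
    tw (zetaC p ^ b) f ∈ IntC := by
  rw [mem_IntC_iff]
  intro n
  rw [tw_coeff]
  obtain ⟨m, hm⟩ := mem_ZC_iff.1 hf n
  rw [← hm]
  have hu : ((zetaC p ^ b) ^ n) ^ p = 1 := by
    rw [← zpow_natCast ((zetaC p ^ b) ^ n) p, ← zpow_mul, mul_comm, zpow_mul, zpow_natCast,
      ← pow_mul, mul_comm, pow_mul, zetaC_pow_self, one_pow, one_zpow]
  have h1 : (((zetaC p ^ b) ^ n : ℂˣ) : ℂ) ^ p = 1 := by
    rw [← Units.val_pow_eq_pow_val, hu, Units.val_one]
  have h2 : IsIntegral ℤ (((zetaC p ^ b) ^ n : ℂˣ) : ℂ) :=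
    IsIntegral.of_pow (Fact.out : p.Prime).pos (h1 ▸ isIntegral_one)
  have h3 : IsIntegral ℤ ((m : ℤ) : ℂ) := by
    have := isIntegral_algebraMap (R := ℤ) (A := ℂ) (x := m)
    simpa using this
  exact h2.mul h3

theorem sum_tw_zetaC_mem_ZC {f : LaurentSeries ℂ} (hf : f ∈ ZC) :
    ∑ b ∈ Finset.range p, tw (zetaC p ^ b) f ∈ ZC := by
  rw [mem_ZC_iff]
  intro n
  rw [sum_tw_zetaC_coeff]
  obtain ⟨m, hm⟩ := mem_ZC_iff.1 hf n
  split_ifs
  · exact ⟨p * m, by push_cast; rw [hm]⟩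
  · exact ⟨0, by simp⟩

theorem fam_mem_IntC (k : ℕ) {g : LaurentSeries ℂ} (hg : g ∈ ZC) (c : Option (Fin p)) :
    fam p k g c ∈ IntC := by
  cases c with
  | none =>
    rw [fam_none]
    refine ZC_le_IntC (mul_mem ?_ ((qExpand_mem_ZC_iff (p * p)).2 hg))
    have := C_natCast_mem_ZC (p ^ k)
    rwa [Nat.cast_pow] at this
  | some b =>
    rw [fam_some]
    exact tw_zetaC_mem_IntC p b hg

theorem fam_psum_mem_ZC (k : ℕ) {g : LaurentSeries ℂ} (hg : g ∈ ZC) (n : ℕ) :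
    ∑ c, fam p k g c ^ n ∈ ZC := by
  rw [sum_fam p k g (fun x => x ^ n)]
  refine add_mem (pow_mem (mul_mem ?_ ((qExpand_mem_ZC_iff (p * p)).2 hg)) n) ?_
  · have := C_natCast_mem_ZC (p ^ k)
    rwa [Nat.cast_pow] at this
  · have h : ∑ b ∈ Finset.range p, tw (zetaC p ^ b) g ^ n =
        ∑ b ∈ Finset.range p, tw (zetaC p ^ b) (g ^ n) :=
      Finset.sum_congr rfl (fun b _ => (tw_pow _ _ _).symm)
    rw [h]
    exact sum_tw_zetaC_mem_ZC p (pow_mem hg n)

/-- The elementary symmetric functions of the family of an integral series are integral. -/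
theorem fam_esymm_mem_ZC (k : ℕ) {g : LaurentSeries ℂ} (hg : g ∈ ZC) (i : ℕ) :
    (Finset.univ.val.map (fam p k g)).esymm i ∈ ZC :=
  esymm_mem_ZC (fam p k g) (fam_mem_IntC p k hg) (fun n _ => fam_psum_mem_ZC p k hg n) i

end Fermat.Agent.S28L
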