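/-
S28, package P2 (helper7), leaf S: polynomials in `j` over `ℂ` as Laurent series: order, leading
coefficient, injectivity, and descent of integrality of coefficients (`ℂ[j] ∩ ℤ((q)) = ℤ[j]`).
-/
import Mathlib
import Fermat.Agent.S28L.Defs
import Fermat.Agent.S28L.Util

set_option autoImplicit false
noncomputable section

namespace Fermat.Agent.S28L

open ModularCurve HahnSeries Polynomial

/-- coefficients of `P(j)` -/
theorem JPoly_aeval_coeff (P : Polynomial ℂ) (n : ℤ) :
    (Polynomial.aeval (jqModC ℂ) P).coeff n =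
      ∑ i ∈ Finset.range (P.natDegree + 1), P.coeff i * (jqModC ℂ ^ i).coeff n := by
  rw [Polynomial.aeval_eq_sum_range, HahnSeries.coeff_sum]
  refine Finset.sum_congr rfl (fun i _ => ?_)
  exact algebra_smul_coeff _ _ _

theorem aeval_jq_coeff_natDegree (P : Polynomial ℂ) :
    (Polynomial.aeval (jqModC ℂ) P).coeff (-(P.natDegree : ℤ)) = P.leadingCoeff := by
  rw [JPoly_aeval_coeff, Finset.sum_eq_single P.natDegree]
  · rw [coeff_jqModC_pow_self, mul_one]; rfl
  · intro i hi hne
    have hi' : i < P.natDegree := lt_of_le_of_ne (Nat.lt_succ_iff.1 (Finset.mem_range.1 hi)) hne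
    rw [coeff_jqModC_pow_of_lt ℂ (by exact_mod_cast (neg_lt_neg_iff.2 (by exact_mod_cast hi'))),
      mul_zero]
  · intro h; exact absurd (Finset.mem_range.2 (Nat.lt_succ_self _)) h

theorem aeval_jq_coeff_of_lt (P : Polynomial ℂ) {n : ℤ} (hn : n < -(P.natDegree : ℤ)) :
    (Polynomial.aeval (jqModC ℂ) P).coeff n = 0 := by
  rw [JPoly_aeval_coeff]
  refine Finset.sum_eq_zero (fun i hi => ?_)
  have hi' : i ≤ P.natDegree := Nat.lt_succ_iff.1 (Finset.mem_range.1 hi)
  have : n < -(i : ℤ) := lt_of_lt_of_le hn (neg_le_neg (by exact_mod_cast hi'))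
  rw [coeff_jqModC_pow_of_lt ℂ this, mul_zero]

theorem aeval_jq_ne_zero {P : Polynomial ℂ} (hP : P ≠ 0) : Polynomial.aeval (jqModC ℂ) P ≠ 0 := by
  intro h
  have h1 := aeval_jq_coeff_natDegree P
  rw [h, HahnSeries.coeff_zero] at h1
  exact hP (Polynomial.leadingCoeff_eq_zero.1 h1.symm)

theorem aeval_jq_order {P : Polynomial ℂ} (hP : P ≠ 0) :
    (Polynomial.aeval (jqModC ℂ) P).order = -(P.natDegree : ℤ) := by
  refine le_antisymm (HahnSeries.order_le_of_coeff_ne_zero ?_) ?_
  · rw [aeval_jq_coeff_natDegree]; exact Polynomial.leadingCoeff_ne_zero.2 hP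
  · exact (HahnSeries.le_order_iff_forall (aeval_jq_ne_zero hP)).mpr
      (fun n hn => aeval_jq_coeff_of_lt P hn)

/-- `j` is transcendental over `ℂ` -/
theorem aeval_jq_injective :
    Function.Injective (fun P : Polynomial ℂ => Polynomial.aeval (jqModC ℂ) P) := by
  intro P Q h
  by_contra hne
  have h1 : Polynomial.aeval (jqModC ℂ) (P - Q) = 0 := by
    rw [map_sub]; exact sub_eq_zero.2 h
  exact aeval_jq_ne_zero (sub_ne_zero.2 hne) h1

/-- powers of `j` have integer coefficients -/
theorem JPoly_jq_pow_coeff_int (d : ℕ) (n : ℤ) :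
    ∃ m : ℤ, (m : ℂ) = (jqModC ℂ ^ d).coeff n := by
  refine ⟨(jqModC ℤ ^ d).coeff n, ?_⟩
  rw [← coeffMap_jqModC (Int.castRingHom ℂ), ← map_pow, coeffMap_coeff]
  rfl

/-- `ℂ[j] ∩ ℤ((q)) = ℤ[j]` (leading-term induction) -/
theorem exists_int_poly_of_aeval_jq (P : Polynomial ℂ)
    (h : ∀ n : ℤ, ∃ m : ℤ, (m : ℂ) = (Polynomial.aeval (jqModC ℂ) P).coeff n) :
    ∃ Q : Polynomial ℤ, Q.map (Int.castRingHom ℂ) = P := by
  suffices H : ∀ (d : ℕ) (P : Polynomial ℂ), P.natDegree ≤ d →
      (∀ n : ℤ, ∃ m : ℤ, (m : ℂ) = (Polynomial.aeval (jqModC ℂ) P).coeff n) →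
      ∃ Q : Polynomial ℤ, Q.map (Int.castRingHom ℂ) = P from H P.natDegree P le_rfl h
  intro d
  induction d with
  | zero =>
    intro P hP h
    obtain ⟨m, hm⟩ := h (-(P.natDegree : ℤ))
    rw [aeval_jq_coeff_natDegree] at hm
    have hP0 : P.natDegree = 0 := Nat.le_zero.1 hP
    have hPC : P = Polynomial.C (P.coeff 0) := Polynomial.eq_C_of_natDegree_eq_zero hP0
    refine ⟨Polynomial.C m, ?_⟩
    rw [Polynomial.map_C, hPC, eq_intCast, hm, Polynomial.leadingCoeff, hP0]
  | succ d ih =>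
    intro P hP h
    by_cases hlt : P.natDegree ≤ d
    · exact ih P hlt h
    have hdeg : P.natDegree = d + 1 := le_antisymm hP (Nat.succ_le_of_lt (not_le.1 hlt))
    obtain ⟨m, hm⟩ := h (-(P.natDegree : ℤ))
    rw [aeval_jq_coeff_natDegree] at hm
    -- remove the leading term
    have hP' : (P - Polynomial.C (P.leadingCoeff) * Polynomial.X ^ (d + 1)).natDegree ≤ d := by
      have h1 : (P - Polynomial.C (P.leadingCoeff) * Polynomial.X ^ (d + 1)).natDegree ≤ d + 1 := by
        refine (Polynomial.natDegree_sub_le _ _).trans (max_le hP ?_)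
        exact Polynomial.natDegree_C_mul_X_pow_le _ _
      have h2 : (P - Polynomial.C (P.leadingCoeff) * Polynomial.X ^ (d + 1)).coeff (d + 1) = 0 := by
        rw [Polynomial.coeff_sub, Polynomial.coeff_C_mul_X_pow, if_pos rfl, Polynomial.leadingCoeff,
          hdeg, sub_self]
      by_contra hc
      have h3 : (P - Polynomial.C (P.leadingCoeff) * Polynomial.X ^ (d + 1)).natDegree = d + 1 :=
        le_antisymm h1 (Nat.succ_le_of_lt (not_le.1 hc))
      have h4 : (P - Polynomial.C (P.leadingCoeff) * Polynomial.X ^ (d + 1)) ≠ 0 := by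
        intro h0; rw [h0, Polynomial.natDegree_zero] at h3; omega
      have h5 := Polynomial.leadingCoeff_ne_zero.2 h4
      rw [Polynomial.leadingCoeff, h3] at h5
      exact h5 h2
    have hint : ∀ n : ℤ, ∃ m' : ℤ, (m' : ℂ) = (Polynomial.aeval (jqModC ℂ)
        (P - Polynomial.C (P.leadingCoeff) * Polynomial.X ^ (d + 1))).coeff n := by
      intro n
      obtain ⟨a, ha⟩ := h n
      obtain ⟨b, hb⟩ := JPoly_jq_pow_coeff_int (d + 1) n
      refine ⟨a - m * b, ?_⟩
      rw [map_sub, map_mul, Polynomial.aeval_C, map_pow, Polynomial.aeval_X, HahnSeries.coeff_sub,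
        algebraMap_eq_C, HahnSeries.C_mul_eq_smul, HahnSeries.coeff_smul, smul_eq_mul, ← ha, ← hb,
        ← hm]
      push_cast; ring
    obtain ⟨Q', hQ'⟩ := ih _ hP' hint
    refine ⟨Q' + Polynomial.C m * Polynomial.X ^ (d + 1), ?_⟩
    rw [Polynomial.map_add, hQ', Polynomial.map_mul, Polynomial.map_C, Polynomial.map_pow,
      Polynomial.map_X, eq_intCast, hm]
    ring

/-- evaluation of an integer polynomial at a Laurent series, via its complexification -/
theorem eval₂_intCast_eq_aeval (Q : Polynomial ℤ) (y : LaurentSeries ℂ) :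
    Q.eval₂ (Int.castRingHom (LaurentSeries ℂ)) y =
      Polynomial.aeval y (Q.map (Int.castRingHom ℂ)) := by
  rw [Polynomial.aeval_def, Polynomial.eval₂_map]
  congr 1
  exact RingHom.ext_int _ _

/-- polynomial evaluation commutes with `V_N = qExpand ℂ N` -/
theorem aeval_qExpand (N : ℕ) [NeZero N] (P : Polynomial ℂ) (y : LaurentSeries ℂ) :
    Polynomial.aeval (qExpand ℂ N y) P = qExpand ℂ N (Polynomial.aeval y P) := by
  have h := Polynomial.aeval_algHom_apply (qExpandAlgHomC ℂ N) y P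
  simpa using h

/-- evaluation at a Laurent series of a constant polynomial -/
theorem aeval_C_eq_C (x : ℂ) (y : LaurentSeries ℂ) :
    Polynomial.aeval y (Polynomial.C x) = HahnSeries.C x := by
  rw [Polynomial.aeval_C, algebraMap_eq_C]

end Fermat.Agent.S28L
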