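/-
S28, package P2 (helper7), leaf L1: the sum of the family is `p · V_p (T_p G)`.
-/
import Mathlib
import Fermat.Agent.S28L.ModPoly.Fam

set_option autoImplicit false
noncomputable section

namespace Fermat.Agent.S28L

open ModularCurve HahnSeries

variable (p : ℕ) [Fact p.Prime]

/-- the coefficient of `V_{p·p} g` at `p · m` for `g` a power series and `m < 0` vanishes -/
theorem fsm_qExpand_sq_coeff_of_neg (G : PowerSeries ℂ) {m : ℤ} (hm : m < 0) :
    (qExpand ℂ (p * p) (HahnSeries.ofPowerSeries ℤ ℂ G)).coeff ((p : ℤ) * m) = 0 := by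
  have hp : p.Prime := Fact.out
  have hpZ : (0 : ℤ) < (p : ℤ) := by exact_mod_cast hp.pos
  by_cases hm' : (p : ℤ) ∣ m
  · obtain ⟨m', rfl⟩ := hm'
    have h1 : (p : ℤ) * ((p : ℤ) * m') = ((p * p : ℕ) : ℤ) * m' := by push_cast; ring
    have h2 : m' < 0 := by
      by_contra h
      push Not at h
      exact absurd hm (not_lt.mpr (mul_nonneg hpZ.le h))
    rw [h1, qExpand_coeff_mul]
    exact ofPowerSeries_coeff_of_neg _ h2
  · refine qExpand_coeff_of_not_dvd _ _ ?_
    intro h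
    apply hm'
    have h3 : (p : ℤ) * (p : ℤ) ∣ (p : ℤ) * m := by
      have h4 : ((p * p : ℕ) : ℤ) = (p : ℤ) * (p : ℤ) := by push_cast; ring
      rwa [h4] at h
    exact (mul_dvd_mul_iff_left hpZ.ne').mp h3

/-- the coefficient of `V_{p·p} g` at `p · n`, `n : ℕ`, for `g` a power series -/
theorem fsm_qExpand_sq_coeff_nat (G : PowerSeries ℂ) (n : ℕ) :
    (qExpand ℂ (p * p) (HahnSeries.ofPowerSeries ℤ ℂ G)).coeff ((p : ℤ) * (n : ℤ)) =
      if p ∣ n then PowerSeries.coeff (n / p) G else 0 := by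
  have hp : p.Prime := Fact.out
  have hpZ : (0 : ℤ) < (p : ℤ) := by exact_mod_cast hp.pos
  by_cases hn : p ∣ n
  · obtain ⟨n', rfl⟩ := hn
    have h1 : (p : ℤ) * ((p * n' : ℕ) : ℤ) = ((p * p : ℕ) : ℤ) * (n' : ℤ) := by push_cast; ring
    rw [if_pos (dvd_mul_right _ _), h1, qExpand_coeff_mul, HahnSeries.ofPowerSeries_apply_coeff,
      Nat.mul_div_cancel_left _ hp.pos]
  · rw [if_neg hn]
    refine qExpand_coeff_of_not_dvd _ _ ?_
    intro h
    apply hn
    have h3 : (p : ℤ) * (p : ℤ) ∣ (p : ℤ) * (n : ℤ) := by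
      have h4 : ((p * p : ℕ) : ℤ) = (p : ℤ) * (p : ℤ) := by push_cast; ring
      rwa [h4] at h
    exact Int.natCast_dvd_natCast.mp ((mul_dvd_mul_iff_left hpZ.ne').mp h3)

/-- The sum of the family of weight `k ≥ 1` of a power series `G` is `p · V_p (T_p G)`, where
`T_p` is the Hecke operator of weight `k` on `q`-expansions. -/
theorem fam_sum {k : ℕ} (hk : 1 ≤ k) (G : PowerSeries ℂ) :
    ∑ c, fam p k (HahnSeries.ofPowerSeries ℤ ℂ G) c =
      HahnSeries.C (p : ℂ) * qExpand ℂ p (HahnSeries.ofPowerSeries ℤ ℂ (heckeSer p k G)) := by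
  have hp : p.Prime := Fact.out
  have hpZ : (0 : ℤ) < (p : ℤ) := by exact_mod_cast hp.pos
  ext N
  rw [sum_fam p k _ (fun x => x), HahnSeries.coeff_add, sum_tw_zetaC_coeff,
    HahnSeries.C_mul_eq_smul, HahnSeries.C_mul_eq_smul, HahnSeries.coeff_smul,
    HahnSeries.coeff_smul, smul_eq_mul, smul_eq_mul]
  by_cases hN : (p : ℤ) ∣ N
  · obtain ⟨m, rfl⟩ := hN
    rw [if_pos (dvd_mul_right _ _), qExpand_coeff_mul]
    rcases lt_or_ge m 0 with hm | hm
    · -- negative exponents: everything vanishes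
      have h1 : (p : ℤ) * m < 0 := mul_neg_of_pos_of_neg hpZ hm
      rw [ofPowerSeries_coeff_of_neg _ hm, ofPowerSeries_coeff_of_neg _ h1,
        fsm_qExpand_sq_coeff_of_neg p G hm]
      simp
    · -- exponent `p * n`, `n : ℕ`
      lift m to ℕ using hm
      have h1 : (p : ℤ) * (m : ℤ) = ((p * m : ℕ) : ℤ) := by push_cast; ring
      rw [fsm_qExpand_sq_coeff_nat p G m, HahnSeries.ofPowerSeries_apply_coeff, h1,
        HahnSeries.ofPowerSeries_apply_coeff, heckeSer, PowerSeries.coeff_mk, mul_comm m p]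
      have hpk : (p : ℂ) ^ k = (p : ℂ) * (p : ℂ) ^ (k - 1) := by
        rw [← pow_succ', Nat.sub_add_cancel hk]
      by_cases hm : p ∣ m
      · rw [if_pos hm, if_pos hm, hpk]
        ring
      · rw [if_neg hm, if_neg hm]
        ring
  · -- exponents not divisible by `p`
    rw [if_neg hN, qExpand_coeff_of_not_dvd p _ hN, qExpand_coeff_of_not_dvd (p * p) _ ?_]
    · simp
    · intro h
      apply hN
      have h4 : ((p * p : ℕ) : ℤ) = (p : ℤ) * (p : ℤ) := by push_cast; ring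
      rw [h4] at h
      exact dvd_trans (dvd_mul_right _ _) h

end Fermat.Agent.S28L
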