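/-
S28, package P2 (helper7), leaf L (modularity of the symmetric functions of the family):
`VM p w = V_p (Mq w)` and the graded Newton argument.
-/
import Mathlib
import Fermat.Agent.S28L.ModPoly.FamSum
import Fermat.Agent.S28L.ModPoly.Newton

set_option autoImplicit false
noncomputable section

namespace Fermat.Agent.S28L

open ModularCurve HahnSeries

variable (p : ℕ) [Fact p.Prime]

/-- `V_p (Mq w)`: the Laurent series `H(q^p)`, `H` the `q`-expansion of a level-one modular form of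
weight `w`. -/
def VM (w : ℕ) : AddSubgroup (LaurentSeries ℂ) where
  carrier := {x | ∃ H ∈ Mq w, x = qExpand ℂ p (HahnSeries.ofPowerSeries ℤ ℂ H)}
  add_mem' := by
    rintro x y ⟨H, hH, rfl⟩ ⟨H', hH', rfl⟩
    exact ⟨H + H', Mq_add hH hH', by rw [map_add, map_add]⟩
  zero_mem' := ⟨0, Mq_zero_mem w, by rw [map_zero, map_zero]⟩
  neg_mem' := by
    rintro x ⟨H, hH, rfl⟩
    refine ⟨(-1 : ℂ) • H, Mq_smul (-1) hH, ?_⟩
    rw [neg_one_smul, map_neg, map_neg]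

variable {p}

theorem mem_VM_iff {w : ℕ} {x : LaurentSeries ℂ} :
    x ∈ VM p w ↔ ∃ H ∈ Mq w, x = qExpand ℂ p (HahnSeries.ofPowerSeries ℤ ℂ H) := Iff.rfl

theorem VM_one : (1 : LaurentSeries ℂ) ∈ VM p 0 :=
  ⟨1, Mq_one, by rw [map_one, map_one]⟩

theorem VM_mul {a b : ℕ} {x y : LaurentSeries ℂ} (hx : x ∈ VM p a) (hy : y ∈ VM p b) :
    x * y ∈ VM p (a + b) := by
  obtain ⟨H, hH, rfl⟩ := hx
  obtain ⟨H', hH', rfl⟩ := hy
  exact ⟨H * H', Mq_mul hH hH', by rw [map_mul, map_mul]⟩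

theorem VM_C_mul {w : ℕ} (c : ℂ) {x : LaurentSeries ℂ} (hx : x ∈ VM p w) :
    HahnSeries.C c * x ∈ VM p w := by
  obtain ⟨H, hH, rfl⟩ := hx
  refine ⟨c • H, Mq_smul c hH, ?_⟩
  rw [PowerSeries.smul_eq_C_mul, map_mul, map_mul, HahnSeries.ofPowerSeries_C, qExpand_C]

theorem VM_div {w : ℕ} (n : ℕ) (hn : 0 < n) (x : LaurentSeries ℂ)
    (h : (n : LaurentSeries ℂ) * x ∈ VM p w) : x ∈ VM p w := by
  have h1 := VM_C_mul ((n : ℂ)⁻¹) h
  have h2 : HahnSeries.C ((n : ℂ)⁻¹) * ((n : LaurentSeries ℂ) * x) = x := by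
    have h3 : (n : LaurentSeries ℂ) = HahnSeries.C (n : ℂ) := (map_natCast HahnSeries.C n).symm
    have h4 : ((n : ℂ)⁻¹) * (n : ℂ) = 1 :=
      inv_mul_cancel₀ (Nat.cast_ne_zero.mpr hn.ne')
    rw [h3, ← mul_assoc, ← map_mul, h4, map_one, one_mul]
  rwa [h2] at h1

/-- powers of `q`-expansions of level-one forms -/
theorem vm_Mq_pow {k : ℕ} {G : PowerSeries ℂ} (hG : G ∈ Mq k) (n : ℕ) : G ^ n ∈ Mq (n * k) := by
  induction n with
  | zero =>
    rw [pow_zero, Nat.zero_mul]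
    exact Mq_one
  | succ n ih =>
    rw [pow_succ, Nat.succ_mul]
    exact Mq_mul ih hG

variable (p)

/-- power sums of the family of a modular form of weight `k ≥ 1` -/
theorem fam_psum_mem_VM {k : ℕ} (hk : 1 ≤ k) {G : PowerSeries ℂ} (hG : G ∈ Mq k) (n : ℕ)
    (hn : 1 ≤ n) :
    ∑ c, fam p k (HahnSeries.ofPowerSeries ℤ ℂ G) c ^ n ∈ VM p (n * k) := by
  have hnk : 1 ≤ n * k := Nat.one_le_iff_ne_zero.mpr (Nat.mul_ne_zero (by omega) (by omega))
  have h1 : ∑ c, fam p k (HahnSeries.ofPowerSeries ℤ ℂ G) c ^ n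
      = ∑ c, fam p (n * k) (HahnSeries.ofPowerSeries ℤ ℂ (G ^ n)) c := by
    refine Finset.sum_congr rfl fun c _ => ?_
    rw [map_pow, fam_pow]
  rw [h1, fam_sum p hnk (G ^ n)]
  refine VM_C_mul (p : ℂ) ⟨heckeSer p (n * k) (G ^ n), ?_, rfl⟩
  exact Mq_hecke p Fact.out hnk (vm_Mq_pow hG n)

/-- (L) The `i`-th elementary symmetric function of the family of a level-one modular form of
weight `k ≥ 1` is `V_p` of (the `q`-expansion of) a level-one modular form of weight `i k`. -/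
theorem fam_esymm_mem_VM {k : ℕ} (hk : 1 ≤ k) {G : PowerSeries ℂ} (hG : G ∈ Mq k) (i : ℕ) :
    (Finset.univ.val.map (fam p k (HahnSeries.ofPowerSeries ℤ ℂ G))).esymm i ∈ VM p (i * k) :=
  esymm_mem_graded (VM p) VM_one (fun _ _ _ _ hx hy => VM_mul hx hy)
    (fun n _ x hn h => VM_div n hn x h) (fam p k (HahnSeries.ofPowerSeries ℤ ℂ G)) k
    (fun n hn => fam_psum_mem_VM p hk hG n hn) i

/-- the product of the family -/
theorem fam_prod_mem_VM {k : ℕ} (hk : 1 ≤ k) {G : PowerSeries ℂ} (hG : G ∈ Mq k) :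
    ∏ c, fam p k (HahnSeries.ofPowerSeries ℤ ℂ G) c ∈ VM p ((p + 1) * k) := by
  have h := fam_esymm_mem_VM p hk hG (Fintype.card (Option (Fin p)))
  rw [esymm_card_fintype, Fintype.card_option, Fintype.card_fin] at h
  exact h

variable {p}

/-- structure of `V_p (Mq (12 m))` -/
theorem VM_structure {m : ℕ} {x : LaurentSeries ℂ} (hx : x ∈ VM p (12 * m)) :
    ∃ P : Polynomial ℂ, P.natDegree ≤ m ∧
      x = qExpand ℂ p (DeltaR ℂ ^ m * Polynomial.aeval (jqModC ℂ) P) := by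
  obtain ⟨H, hH, rfl⟩ := hx
  obtain ⟨P, hP, hHP⟩ := Mq_structure m hH
  exact ⟨P, hP, by rw [hHP]⟩

/-- the `q`-series of `Δ` and of `E₄³ = j Δ` as power series over `ℂ` -/
theorem ofPowerSeries_Delta :
    HahnSeries.ofPowerSeries ℤ ℂ (PowerSeries.X * dedekindEtaUnit.map (Int.castRingHom ℂ)) =
      DeltaR ℂ := by
  rw [map_mul, HahnSeries.ofPowerSeries_X, DeltaR]

theorem Mq_E4_cube : (eisenstein4 ^ 3).map (Int.castRingHom ℂ) ∈ Mq 12 := by
  have h := vm_Mq_pow Mq_E4 3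
  rw [map_pow]
  exact h

theorem ofPowerSeries_E4_cube :
    HahnSeries.ofPowerSeries ℤ ℂ ((eisenstein4 ^ 3).map (Int.castRingHom ℂ)) =
      jqModC ℂ * DeltaR ℂ :=
  (jqModC_mul_DeltaR ℂ).symm

end Fermat.Agent.S28L
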