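/-
S28, package P2 (helper7), leaf V: a polynomial over `ℂ((q))` all of whose values at complex
constants lie in a `ℂ`-stable additive subgroup has all its coefficients in that subgroup
(Vandermonde / Lagrange interpolation).
-/
import Mathlib

set_option autoImplicit false
noncomputable section

namespace Fermat.Agent.S28L

theorem coeff_mem_of_forall_eval_mem (W : AddSubgroup (LaurentSeries ℂ))
    (hW : ∀ (c : ℂ) (x : LaurentSeries ℂ), x ∈ W → HahnSeries.C c * x ∈ W)
    (Q : Polynomial (LaurentSeries ℂ))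
    (h : ∀ x : ℂ, Q.eval (HahnSeries.C x) ∈ W) (i : ℕ) : Q.coeff i ∈ W := by
  classical
  obtain ⟨n, hn⟩ : ∃ n : ℕ, Q.natDegree = n := ⟨_, rfl⟩
  by_cases hi : n < i
  · rw [Polynomial.coeff_eq_zero_of_natDegree_lt (hn ▸ hi)]
    exact W.zero_mem
  push Not at hi
  -- the nodes `0, 1, …, n`
  let v : Fin (n + 1) → ℂ := fun j => ((j : ℕ) : ℂ)
  have hv : Function.Injective v := by
    intro a b hab
    simp only [v] at hab
    exact Fin.ext (by exact_mod_cast hab)
  let V : Matrix (Fin (n + 1)) (Fin (n + 1)) ℂ := Matrix.vandermonde v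
  have hdet : V.det ≠ 0 := Matrix.det_vandermonde_ne_zero_iff.mpr hv
  have hunit : IsUnit V.det := isUnit_iff_ne_zero.mpr hdet
  have hMV : V⁻¹ * V = 1 := Matrix.nonsing_inv_mul V hunit
  let i' : Fin (n + 1) := ⟨i, Nat.lt_succ_of_le hi⟩
  have key : ∀ k : Fin (n + 1),
      ∑ j, V⁻¹ i' j * v j ^ (k : ℕ) = if i' = k then 1 else 0 := by
    intro k
    have h0 := congrFun (congrFun hMV i') k
    simp only [Matrix.mul_apply, Matrix.one_apply] at h0
    simpa [V, Matrix.vandermonde_apply] using h0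
  have hQ : Q.coeff i = ∑ j, HahnSeries.C (V⁻¹ i' j) * Q.eval (HahnSeries.C (v j)) := by
    have h1 : ∀ j, Q.eval (HahnSeries.C (v j))
        = ∑ k : Fin (n + 1), Q.coeff (k : ℕ) * HahnSeries.C (v j ^ (k : ℕ)) := by
      intro j
      rw [Polynomial.eval_eq_sum_range, hn, Finset.sum_range]
      refine Finset.sum_congr rfl (fun k _ => ?_)
      rw [map_pow]
    have h2 : ∀ k : Fin (n + 1),
        ∑ j, HahnSeries.C (V⁻¹ i' j) * (Q.coeff (k : ℕ) * HahnSeries.C (v j ^ (k : ℕ)))
          = Q.coeff (k : ℕ) * HahnSeries.C (if i' = k then (1 : ℂ) else 0) := by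
      intro k
      rw [← key k, map_sum, Finset.mul_sum]
      refine Finset.sum_congr rfl (fun j _ => ?_)
      rw [map_mul]
      ring
    simp_rw [h1, Finset.mul_sum]
    rw [Finset.sum_comm]
    simp_rw [h2]
    simp [apply_ite, Finset.sum_ite_eq, i']
  rw [hQ]
  exact W.sum_mem (fun j _ => hW _ _ (h _))

end Fermat.Agent.S28L
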