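/-
S28, package P2 (helper7), leaf C1a: polarisation in `x Δ - E₄³`, Vandermonde, structure of
level-one forms: the coefficients of `S · ∏_c (X - j_c)`, `S = ∏_c Δ_c`.
-/
import Mathlib
import Fermat.Agent.S28L.ModPoly.VM
import Fermat.Agent.S28L.ModPoly.Vand
import Fermat.Agent.S28L.ModPoly.JPoly

set_option autoImplicit false
noncomputable section

namespace Fermat.Agent.S28L

open ModularCurve HahnSeries Polynomial

variable (p : ℕ) [Fact p.Prime]

/-- `S = ∏_c Δ_c`, the product of the (weight 12) family of `Δ`. -/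
def famDeltaProd : LaurentSeries ℂ := ∏ c, fam p 12 (DeltaR ℂ) c

theorem famDeltaProd_ne_zero : famDeltaProd p ≠ 0 := by
  unfold famDeltaProd
  exact Finset.prod_ne_zero_iff.mpr (fun c _ => fam_ne_zero p 12 (DeltaR_ne_zero ℂ) c)

/-- the order of a finite product of nonzero Laurent series over `ℂ` is the sum of the orders -/
theorem mpa_order_prod {ι : Type*} (s : Finset ι) (f : ι → LaurentSeries ℂ)
    (hf : ∀ i ∈ s, f i ≠ 0) : (∏ i ∈ s, f i).order = ∑ i ∈ s, (f i).order := by
  classical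
  induction s using Finset.induction_on with
  | empty => simp
  | insert a s ha ih =>
    have hfa : f a ≠ 0 := hf a (Finset.mem_insert_self a s)
    have hfs : ∀ i ∈ s, f i ≠ 0 := fun i hi => hf i (Finset.mem_insert_of_mem hi)
    have hprod : ∏ i ∈ s, f i ≠ 0 := Finset.prod_ne_zero_iff.mpr hfs
    rw [Finset.prod_insert ha, Finset.sum_insert ha, HahnSeries.order_mul hfa hprod, ih hfs]

theorem famDeltaProd_order : (famDeltaProd p).order = ((p * p + p : ℕ) : ℤ) := by
  unfold famDeltaProd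
  rw [mpa_order_prod Finset.univ _ (fun c _ => fam_ne_zero p 12 (DeltaR_ne_zero ℂ) c),
    Fintype.sum_option, fam_none_order]
  simp only [fam_some_order, DeltaR_order, Finset.sum_const, Finset.card_univ, Fintype.card_fin]
  push_cast
  ring

/-- the family of `x Δ - E₄³` is `(x - j_c) Δ_c` -/
theorem fam_polar (x : ℂ) (c : Option (Fin p)) :
    fam p 12 (HahnSeries.C x * DeltaR ℂ - jqModC ℂ * DeltaR ℂ) c =
      (HahnSeries.C x - fam p 0 (jqModC ℂ) c) * fam p 12 (DeltaR ℂ) c := by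
  have h := fam_mul p 0 12 (jqModC ℂ) (DeltaR ℂ) c
  have h' : fam p 12 (jqModC ℂ * DeltaR ℂ) c =
      fam p 0 (jqModC ℂ) c * fam p 12 (DeltaR ℂ) c := h
  rw [fam_sub, fam_C_mul, h', sub_mul]

/-- the power series `x Δ - E₄³` is the `q`-expansion of a level-one form of weight `12` -/
theorem mpa_polar_mem (x : ℂ) :
    x • (PowerSeries.X * dedekindEtaUnit.map (Int.castRingHom ℂ)) +
      (-1 : ℂ) • (eisenstein4 ^ 3).map (Int.castRingHom ℂ) ∈ Mq 12 :=
  Mq_add (Mq_smul x Mq_Delta) (Mq_smul (-1 : ℂ) Mq_E4_cube)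

theorem mpa_polar_ofPowerSeries (x : ℂ) :
    HahnSeries.ofPowerSeries ℤ ℂ
        (x • (PowerSeries.X * dedekindEtaUnit.map (Int.castRingHom ℂ)) +
          (-1 : ℂ) • (eisenstein4 ^ 3).map (Int.castRingHom ℂ)) =
      HahnSeries.C x * DeltaR ℂ - jqModC ℂ * DeltaR ℂ := by
  rw [map_add, PowerSeries.smul_eq_C_mul, map_mul, HahnSeries.ofPowerSeries_C,
    ofPowerSeries_Delta, neg_one_smul, map_neg, ofPowerSeries_E4_cube, sub_eq_add_neg]

/-- polarisation: `S · ∏_c (x - j_c) ∈ V_p (Mq (12 (p+1)))` for every complex `x` -/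
theorem famDeltaProd_mul_eval_mem (x : ℂ) :
    (Polynomial.C (famDeltaProd p) * ∏ c, (Polynomial.X - Polynomial.C (fam p 0 (jqModC ℂ) c))).eval (HahnSeries.C x)
      ∈ VM p (12 * (p + 1)) := by
  have hmem := fam_prod_mem_VM p (by norm_num : 1 ≤ 12) (mpa_polar_mem x)
  rw [mpa_polar_ofPowerSeries] at hmem
  have hprod : ∏ c, fam p 12 (HahnSeries.C x * DeltaR ℂ - jqModC ℂ * DeltaR ℂ) c =
      (Polynomial.C (famDeltaProd p) *
        ∏ c, (Polynomial.X - Polynomial.C (fam p 0 (jqModC ℂ) c))).eval (HahnSeries.C x) := by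
    rw [Polynomial.eval_mul, Polynomial.eval_C, Polynomial.eval_prod]
    simp only [Polynomial.eval_sub, Polynomial.eval_X, Polynomial.eval_C]
    rw [Finset.prod_congr rfl (fun c _ => fam_polar p x c), Finset.prod_mul_distrib, mul_comm]
    rfl
  rw [hprod, mul_comm (p + 1) 12] at hmem
  exact hmem

/-- Vandermonde + structure theorem: every coefficient of `S · ∏_c (X - j_c)` is
`V_p (Δ^(p+1) P(j))` with `deg P ≤ p + 1`. -/
theorem famDeltaProd_mul_coeff (i : ℕ) :
    ∃ P : Polynomial ℂ, P.natDegree ≤ p + 1 ∧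
      famDeltaProd p * (∏ c, (Polynomial.X - Polynomial.C (fam p 0 (jqModC ℂ) c))).coeff i =
        qExpand ℂ p (DeltaR ℂ ^ (p + 1) * Polynomial.aeval (jqModC ℂ) P) := by
  have h := coeff_mem_of_forall_eval_mem (VM p (12 * (p + 1)))
    (fun c x hx => VM_C_mul c hx)
    (Polynomial.C (famDeltaProd p) *
      ∏ c, (Polynomial.X - Polynomial.C (fam p 0 (jqModC ℂ) c)))
    (famDeltaProd_mul_eval_mem p) i
  rw [Polynomial.coeff_C_mul] at h
  exact VM_structure h

end Fermat.Agent.S28L
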