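/-
S28, package P2 (helper7), leaf C1b: the coefficients of `∏_c (X - j_c)` (the family of `j`) are
`V_p` of complex polynomials in `j` (order of `S = ∏_c Δ_c` at `∞`, division by `S`).
-/
import Mathlib
import Fermat.Agent.S28L.ModPoly.ModPolyCa

set_option autoImplicit false
noncomputable section

namespace Fermat.Agent.S28L

open ModularCurve HahnSeries Polynomial

variable (p : ℕ) [Fact p.Prime]

/-- the polynomial `∏_c (X - j_c)` is monic of degree `p + 1`: its top coefficient is `1` -/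
theorem mpb_prod_coeff_top :
    (∏ c, (Polynomial.X - Polynomial.C (fam p 0 (jqModC ℂ) c))).coeff (p + 1) = 1 := by
  have hmonic : (∏ c, (Polynomial.X - Polynomial.C (fam p 0 (jqModC ℂ) c))).Monic :=
    Polynomial.monic_prod_of_monic _ _ (fun c _ => Polynomial.monic_X_sub_C _)
  have hdeg : (∏ c, (Polynomial.X - Polynomial.C (fam p 0 (jqModC ℂ) c))).natDegree = p + 1 := by
    rw [Polynomial.natDegree_prod_of_monic _ _ (fun c _ => Polynomial.monic_X_sub_C _)]
    simp [Fintype.card_option, Fintype.card_fin]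
  rw [← hdeg]
  exact hmonic.coeff_natDegree

/-- order of `Δ^(p+1) * P(j)` for `P ≠ 0` -/
theorem mpb_order_mul (n : ℕ) {P : Polynomial ℂ} (hP : P ≠ 0) :
    (DeltaR ℂ ^ n * Polynomial.aeval (jqModC ℂ) P).order = (n : ℤ) - (P.natDegree : ℤ) := by
  rw [HahnSeries.order_mul (pow_ne_zero _ (DeltaR_ne_zero ℂ)) (aeval_jq_ne_zero hP),
    HahnSeries.order_pow, DeltaR_order, aeval_jq_order hP]
  simp
  ring

/-- `S = κ · V_p (Δ^(p+1))` for a nonzero constant `κ` (comparison of orders at `∞`) -/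
theorem famDeltaProd_eq :
    ∃ κ : ℂ, κ ≠ 0 ∧ famDeltaProd p = HahnSeries.C κ * qExpand ℂ p (DeltaR ℂ ^ (p + 1)) := by
  obtain ⟨P, -, hP⟩ := famDeltaProd_mul_coeff p (p + 1)
  rw [mpb_prod_coeff_top, mul_one] at hP
  have hS := famDeltaProd_ne_zero p
  have hP0 : P ≠ 0 := by
    rintro rfl
    rw [map_zero, mul_zero, map_zero] at hP
    exact hS hP
  have hord := famDeltaProd_order p
  rw [hP, qExpand_order, mpb_order_mul (p + 1) hP0] at hord
  have hnat : P.natDegree = 0 := by
    have hp : (0 : ℤ) < p := by exact_mod_cast (Fact.out : p.Prime).pos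
    push_cast at hord
    have h0 : (p : ℤ) * (P.natDegree : ℤ) = 0 := by linarith
    rcases mul_eq_zero.1 h0 with h | h
    · omega
    · exact_mod_cast h
  have hκ : P = Polynomial.C (P.coeff 0) := Polynomial.eq_C_of_natDegree_eq_zero hnat
  refine ⟨P.coeff 0, ?_, ?_⟩
  · intro h0
    apply hP0
    rw [hκ, h0, map_zero]
  · rw [hP, hκ, aeval_C_eq_C, map_mul, qExpand_C, mul_comm, Polynomial.coeff_C_zero]

/-- (C1a) The coefficients of `∏_c (X - j_c)` are `V_p` of complex polynomials in `j`. -/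
theorem modPoly_coeff_complex :
    ∃ P : ℕ → Polynomial ℂ, ∀ i : ℕ,
      (∏ c, (Polynomial.X - Polynomial.C (fam p 0 (jqModC ℂ) c))).coeff i =
        qExpand ℂ p (Polynomial.aeval (jqModC ℂ) (P i)) := by
  obtain ⟨κ, hκ, hS⟩ := famDeltaProd_eq p
  choose P _ hP using famDeltaProd_mul_coeff p
  have hS0 := famDeltaProd_ne_zero p
  refine ⟨fun i => Polynomial.C κ⁻¹ * P i, fun i => ?_⟩
  apply mul_left_cancel₀ hS0
  rw [hP i]
  simp only [map_mul, aeval_C_eq_C, qExpand_C]
  rw [hS]
  have hC : HahnSeries.C κ * HahnSeries.C κ⁻¹ = (1 : LaurentSeries ℂ) := by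
    rw [← map_mul, mul_inv_cancel₀ hκ, map_one]
  rw [mul_mul_mul_comm, hC, one_mul]

end Fermat.Agent.S28L
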