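/-
S28, package P2 (helper7), leaf C1c: the modular polynomial of prime level `p` with integer
coefficients, with its factorisation over `ℂ((q))`.
-/
import Mathlib
import Fermat.Agent.S28L.ModPoly.ModPolyCb
import Fermat.Agent.S28L.ModPoly.FamInt

set_option autoImplicit false
noncomputable section

namespace Fermat.Agent.S28L

open ModularCurve HahnSeries Polynomial

variable (p : ℕ) [Fact p.Prime]

/-- `∏_c (X - j_c)` is monic -/
theorem mpc_monic :
    (∏ c, (Polynomial.X - Polynomial.C (fam p 0 (jqModC ℂ) c))).Monic :=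
  Polynomial.monic_prod_of_monic _ _ (fun _ _ => Polynomial.monic_X_sub_C _)

/-- `∏_c (X - j_c)` has degree `p + 1` -/
theorem mpc_natDegree :
    (∏ c, (Polynomial.X - Polynomial.C (fam p 0 (jqModC ℂ) c))).natDegree = p + 1 := by
  rw [Polynomial.natDegree_prod_of_monic _ _ (fun _ _ => Polynomial.monic_X_sub_C _)]
  simp [Fintype.card_option, Fintype.card_fin]

/-- the coefficients of `∏_c (X - j_c)` have integer coefficients -/
theorem modPoly_coeff_mem_ZC (i : ℕ) :
    (∏ c, (Polynomial.X - Polynomial.C (fam p 0 (jqModC ℂ) c))).coeff i ∈ ZC := by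
  have hcard : Fintype.card (Option (Fin p)) = p + 1 := by
    rw [Fintype.card_option, Fintype.card_fin]
  by_cases hi : i ≤ p + 1
  · rw [prod_X_sub_C_coeff_fintype (fam p 0 (jqModC ℂ)) (by rw [hcard]; exact hi)]
    exact ZC.mul_mem (ZC.pow_mem (ZC.neg_mem ZC.one_mem) _)
      (fam_esymm_mem_ZC p 0 jqModC_mem_ZC _)
  · push Not at hi
    rw [Polynomial.coeff_eq_zero_of_natDegree_lt (by rw [mpc_natDegree]; exact hi)]
    exact ZC.zero_mem

/-- The coefficients of `∏_c (X - j_c)` are `V_p` of integer polynomials in `j`. -/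
theorem modPoly_coeff_int :
    ∃ Q : ℕ → Polynomial ℤ, ∀ i : ℕ,
      (∏ c, (Polynomial.X - Polynomial.C (fam p 0 (jqModC ℂ) c))).coeff i =
        qExpand ℂ p (Polynomial.aeval (jqModC ℂ) ((Q i).map (Int.castRingHom ℂ))) := by
  obtain ⟨P, hP⟩ := modPoly_coeff_complex p
  have h : ∀ i : ℕ, ∃ Q : Polynomial ℤ, Q.map (Int.castRingHom ℂ) = P i := by
    intro i
    apply exists_int_poly_of_aeval_jq
    have h1 : qExpand ℂ p (Polynomial.aeval (jqModC ℂ) (P i)) ∈ ZC := by
      rw [← hP i]
      exact modPoly_coeff_mem_ZC p i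
    exact mem_ZC_iff.mp ((qExpand_mem_ZC_iff p).mp h1)
  choose Q hQ using h
  exact ⟨Q, fun i => by rw [hQ i]; exact hP i⟩

/-- (C1) The modular polynomial over `ℤ` with its factorisation over `ℂ((q))`. -/
theorem exists_modPoly_complex :
    ∃ Φ : Polynomial (Polynomial ℤ), Φ.Monic ∧ Φ.natDegree = p + 1 ∧
      ev2 Φ (qExpand ℂ p (jqModC ℂ)) =
        (Polynomial.X - Polynomial.C (qExpand ℂ (p * p) (jqModC ℂ))) *
          ∏ b ∈ Finset.range p, (Polynomial.X - Polynomial.C (tw (zetaC p ^ b) (jqModC ℂ))) := by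
  obtain ⟨Q, hQ⟩ := modPoly_coeff_int p
  -- normalise the top coefficient
  have hQ' : ∀ i : ℕ,
      (∏ c, (Polynomial.X - Polynomial.C (fam p 0 (jqModC ℂ) c))).coeff i =
        qExpand ℂ p (Polynomial.aeval (jqModC ℂ)
          ((if i = p + 1 then (1 : Polynomial ℤ) else Q i).map (Int.castRingHom ℂ))) := by
    intro i
    by_cases hi : i = p + 1
    · rw [if_pos hi, Polynomial.map_one, map_one, map_one, hi]
      have h := (mpc_monic p).coeff_natDegree
      rw [mpc_natDegree] at h
      exact h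
    · rw [if_neg hi]
      exact hQ i
  -- the polynomial
  have hcoeff : ∀ n : ℕ,
      (∑ i ∈ Finset.range (p + 2),
        Polynomial.C (if i = p + 1 then (1 : Polynomial ℤ) else Q i) * Polynomial.X ^ i).coeff n =
        if n < p + 2 then (if n = p + 1 then (1 : Polynomial ℤ) else Q n) else 0 := by
    intro n
    rw [Polynomial.finsetSum_coeff]
    simp only [Polynomial.coeff_C_mul_X_pow]
    rw [Finset.sum_ite_eq]
    simp only [Finset.mem_range]
  have hdeg : (∑ i ∈ Finset.range (p + 2),
      Polynomial.C (if i = p + 1 then (1 : Polynomial ℤ) else Q i) * Polynomial.X ^ i).natDegree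
        ≤ p + 1 := by
    rw [Polynomial.natDegree_le_iff_coeff_eq_zero]
    intro N hN
    rw [hcoeff, if_neg (by omega)]
  have htop : (∑ i ∈ Finset.range (p + 2),
      Polynomial.C (if i = p + 1 then (1 : Polynomial ℤ) else Q i) * Polynomial.X ^ i).coeff
        (p + 1) = 1 := by
    rw [hcoeff, if_pos (by omega), if_pos rfl]
  refine ⟨∑ i ∈ Finset.range (p + 2),
      Polynomial.C (if i = p + 1 then (1 : Polynomial ℤ) else Q i) * Polynomial.X ^ i,
    Polynomial.monic_of_natDegree_le_of_coeff_eq_one (p + 1) hdeg htop, ?_, ?_⟩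
  · refine le_antisymm hdeg (Polynomial.le_natDegree_of_ne_zero ?_)
    rw [htop]
    exact one_ne_zero
  · have hprod := prod_fam p 0 (jqModC ℂ) (fun y => Polynomial.X - Polynomial.C y)
    rw [pow_zero, map_one, one_mul] at hprod
    rw [← hprod]
    ext1 n
    rw [ev2_coeff, hcoeff]
    by_cases hn : n < p + 2
    · rw [if_pos hn, eval₂_intCast_eq_aeval, aeval_qExpand, hQ' n]
    · rw [if_neg hn, Polynomial.eval₂_zero,
        Polynomial.coeff_eq_zero_of_natDegree_lt (by rw [mpc_natDegree]; omega)]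

end Fermat.Agent.S28L
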